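import Mathlib
import Fermat.Agent.LT.T6.H277.OrbEllSpec
import Fermat.Agent.LT.T6.H338.LatticeTree

/-!
# Row LT, tower T6, leaf T6.13.2.6 `BTTreeC` (registry 1115) -- helper293, OFF-MAIN

`btTreeC293 : Fermat.Agent.LT.T6.H277.BTTreeC`, VERBATIM the Prop of
`Fermat/Agent/LT/T6/H277/OrbEllSpec.lean` (helper277, sha256 7b0956b2baf7cad6), UNCONDITIONAL.

Adapter from the tree of helper338 (`Fermat/Agent/LT/T6/H338/LatticeTree.lean`,
sha256 7f18d8c88adabc23): `V = BT338`, `π = btMk338`, `d = btDist338`;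
`btMk338_surj`, `btMk338_eq_iff`, `btDist338_mk`, `isTreeDist_bt338`, `ncard_nb_bt338`.
The only new content is the translation of the fibre condition
`y = x * (sc z * u)` (group form, `z ≠ 0`) into `(h : Matrix) = z • (g * u : Matrix)`.
-/

set_option autoImplicit false

open scoped Matrix

noncomputable section

namespace Fermat.Agent.LT.T6.H293

open Fermat.Agent.LT.T6 Fermat.Agent.LT.T6.H277 Fermat.Agent.LT.H338 Fermat.Agent.LT.H129

variable {k : Type} [Field k]

/-- `x * (sc z * u) = z • (x * u)` on the level of matrices. -/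
theorem coe_mul_sc_mul293 (z : k) (hz : z ≠ 0) (x u : GL (Fin 2) k) :
    ((x * (sc338 z hz * u) : GL (Fin 2) k) : Matrix (Fin 2) (Fin 2) k)
      = z • ((x * u : GL (Fin 2) k) : Matrix (Fin 2) (Fin 2) k) := by
  have h1 : ((sc338 z hz * u : GL (Fin 2) k) : Matrix (Fin 2) (Fin 2) k)
      = z • (u : Matrix (Fin 2) (Fin 2) k) := by
    ext i j
    rw [sc338_mul_apply, Matrix.smul_apply, smul_eq_mul]
  rw [Matrix.GeneralLinearGroup.coe_mul, h1, Matrix.mul_smul, Matrix.GeneralLinearGroup.coe_mul]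

/-- A scalar multiple of an invertible matrix which is invertible has a non-zero scalar. -/
theorem ne_zero_of_coe_eq_smul293 {z : k} {h g : GL (Fin 2) k}
    (e : (h : Matrix (Fin 2) (Fin 2) k) = z • (g : Matrix (Fin 2) (Fin 2) k)) : z ≠ 0 := by
  intro hz
  have hdet : (h : Matrix (Fin 2) (Fin 2) k).det ≠ 0 := by
    have hu : IsUnit (h : Matrix (Fin 2) (Fin 2) k).det :=
      (Matrix.isUnit_iff_isUnit_det _).1 (Units.isUnit h)
    exact hu.ne_zero
  apply hdet
  rw [e, hz, zero_smul]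
  exact Matrix.det_zero

variable [Valued k Γ₀]

/-- The fibres of `btMk338` in the form of `H277.BTTreeC`. -/
theorem btMk338_eq_iff_smul293 (hk : ∃ ϖ : k, Valued.v ϖ = WithZero.exp (-1 : ℤ))
    (g h : GL (Fin 2) k) :
    btMk338 hk g = btMk338 hk h ↔
      ∃ (z : k) (u : GL (Fin 2) k), InU 0 u ∧
        (h : Matrix (Fin 2) (Fin 2) k)
          = z • ((g * u : GL (Fin 2) k) : Matrix (Fin 2) (Fin 2) k) := by
  rw [btMk338_eq_iff]
  constructor
  · rintro ⟨z, hz, u, hu, rfl⟩
    exact ⟨z, u, hu, coe_mul_sc_mul293 z hz g u⟩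
  · rintro ⟨z, u, hu, e⟩
    have hz : z ≠ 0 := ne_zero_of_coe_eq_smul293 e
    refine ⟨z, hz, u, hu, ?_⟩
    apply ext_mat129
    rw [e, coe_mul_sc_mul293]

/-- **T6.13.2.6 `BTTreeC`** (helper277 `OrbEllSpec.lean`), from the tree of helper338. -/
theorem btTreeC293 : BTTreeC := by
  intro k _ _ q hk
  refine ⟨BT338 hk.unif, btMk338 hk.unif, btDist338 hk.unif, ?_, ?_, ?_, ?_, ?_⟩
  · intro x
    exact btMk338_surj hk.unif x
  · intro g h
    exact btMk338_eq_iff_smul293 hk.unif g h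
  · intro g h
    rw [btDist338_mk]
    rfl
  · exact isTreeDist_bt338 hk.unif
  · intro v
    exact ncard_nb_bt338 hk v

example : Fermat.Agent.LT.T6.H277.BTTreeC := btTreeC293

end Fermat.Agent.LT.T6.H293

end
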